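/-
S35 cell [NEW-0] (helper26), part 1 (Mathlib only): the linear-algebra transfer lemma [LIN].

A homogeneous linear system with coefficients in a commutative ring `R` (finitely many unknowns,
arbitrarily many equations) which has a nonzero solution over a field `K₁ ⊇ R` has a nonzero
solution over every field `K₂` receiving `R`  (`s35n_lin`).
Also: a ring homomorphism from a subring of `ℂ` that is integral over `ℤ` into a domain of
characteristic zero is injective (`s35n_iota_injective`).
Prefix `s35n_`.
-/
import Mathlib

set_option autoImplicit false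
set_option linter.style.haveILetI false

namespace Fermat.Agent.S35

open Module

/-- if a system of linear forms has no nonzero common zero, the forms span the whole space of
row vectors -/
theorem s35n_lin_span {K : Type*} [Field K] {n : ℕ} {I : Type*} (r : I → Fin n → K)
    (h : ∀ y : Fin n → K, (∀ i, ∑ j, r i j * y j = 0) → y = 0) :
    Submodule.span K (Set.range r) = ⊤ := by
  classical
  by_contra hne
  have hlt : Submodule.span K (Set.range r) < ⊤ := lt_top_iff_ne_top.2 hne
  obtain ⟨f, hf0, hf⟩ := Submodule.exists_dual_map_eq_bot_of_lt_top hlt inferInstance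
  apply hf0
  have hfx : ∀ x : Fin n → K, f x = ∑ j, x j * f (fun k => if j = k then 1 else 0) := by
    intro x
    rw [LinearMap.pi_apply_eq_sum_univ f x]
    rfl
  have hy := h (fun j => f (fun k => if j = k then 1 else 0)) (fun i => by
    rw [← hfx (r i)]
    have hmem : f (r i) ∈ (Submodule.span K (Set.range r)).map f :=
      Submodule.mem_map_of_mem (Submodule.subset_span ⟨i, rfl⟩)
    rw [hf, Submodule.mem_bot] at hmem
    exact hmem)
  refine LinearMap.ext fun x => ?_
  rw [hfx x, LinearMap.zero_apply]
  refine Finset.sum_eq_zero fun j _ => ?_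
  have := congrFun hy j
  simp only [Pi.zero_apply] at this
  rw [this, mul_zero]

/-- **[LIN]** a homogeneous linear system over `R` with a nonzero solution over a field into which
`R` embeds has a nonzero solution over every field receiving `R`. -/
theorem s35n_lin {R K₁ K₂ : Type*} [CommRing R] [Field K₁] [Field K₂]
    (ι₁ : R →+* K₁) (ι₂ : R →+* K₂) (h₁ : Function.Injective ι₁)
    {n : ℕ} {I : Type*} (A : I → Fin n → R)
    (hy : ∃ y : Fin n → K₁, y ≠ 0 ∧ ∀ i, ∑ j, ι₁ (A i j) * y j = 0) :
    ∃ y : Fin n → K₂, y ≠ 0 ∧ ∀ i, ∑ j, ι₂ (A i j) * y j = 0 := by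
  classical
  by_contra hno
  have hno' : ∀ y : Fin n → K₂, (∀ i, ∑ j, ι₂ (A i j) * y j = 0) → y = 0 := by
    intro y hy'
    by_contra hy0
    exact hno ⟨y, hy0, hy'⟩
  have hspan := s35n_lin_span (fun i j => ι₂ (A i j)) hno'
  set b := Basis.ofSpan (le_of_eq hspan.symm) with hb
  letI : Fintype ↑((linearIndepOn_empty K₂ id).extend
      (Set.empty_subset (Set.range fun i j => ι₂ (A i j)))) :=
    FiniteDimensional.fintypeBasisIndex b
  have hcard : Fintype.card ↑((linearIndepOn_empty K₂ id).extend
      (Set.empty_subset (Set.range fun i j => ι₂ (A i j)))) = n := by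
    rw [← Module.finrank_eq_card_basis b]
    simp
  have hb' : ∀ k : Fin n, ∃ i : I,
      (fun j => ι₂ (A i j)) = b ((Fintype.equivFinOfCardEq hcard).symm k) := by
    intro k
    exact Basis.ofSpan_subset (le_of_eq hspan.symm) ⟨_, rfl⟩
  choose i hi using hb'
  let A' : Matrix (Fin n) (Fin n) R := Matrix.of fun k j => A (i k) j
  -- the determinant is nonzero over `K₂`
  have hunit : IsUnit (ι₂.mapMatrix A') := by
    rw [← Matrix.linearIndependent_rows_iff_isUnit]
    have hrow : (ι₂.mapMatrix A').row = fun k => b ((Fintype.equivFinOfCardEq hcard).symm k) := by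
      funext k
      rw [← hi k]
      rfl
    rw [hrow]
    exact b.linearIndependent.comp _ (Fintype.equivFinOfCardEq hcard).symm.injective
  have hdet2 : ι₂ A'.det ≠ 0 := by
    rw [RingHom.map_det]
    exact ((Matrix.isUnit_iff_isUnit_det _).1 hunit).ne_zero
  -- the determinant is zero over `K₁`
  obtain ⟨y, hy0, hy⟩ := hy
  have hdet1 : (ι₁.mapMatrix A').det = 0 := by
    rw [← Matrix.exists_mulVec_eq_zero_iff]
    refine ⟨y, hy0, ?_⟩
    funext k
    rw [Matrix.mulVec, dotProduct]
    exact hy (i k)
  rw [← RingHom.map_det] at hdet1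
  have : A'.det = 0 := h₁ (hdet1.trans (map_zero ι₁).symm)
  exact hdet2 (by rw [this, map_zero])

/-- a ring homomorphism from a subring of `ℂ` which is integral over `ℤ` into a domain of
characteristic zero is injective -/
theorem s35n_iota_injective {R : Subring ℂ} (hR : ∀ x : R, IsIntegral ℤ (x : ℂ))
    {O : Type*} [CommRing O] [IsDomain O] [CharZero O] (iota : R →+* O) :
    Function.Injective iota := by
  rw [injective_iff_map_eq_zero]
  intro x hx
  by_contra hx0
  have hxC : (x : ℂ) ≠ 0 := fun h => hx0 (Subtype.ext h)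
  -- the minimal polynomial of `x` over `ℤ` has nonzero constant coefficient
  have hint := hR x
  set P := minpoly ℤ (x : ℂ) with hP
  have hc0 : P.coeff 0 ≠ 0 := by
    have hQ : minpoly ℚ (x : ℂ) = P.map (algebraMap ℤ ℚ) :=
      minpoly.isIntegrallyClosed_eq_field_fractions' ℚ hint
    have h1 : (minpoly ℚ (x : ℂ)).coeff 0 ≠ 0 :=
      minpoly.coeff_zero_ne_zero hint.tower_top hxC
    rw [hQ, Polynomial.coeff_map] at h1
    intro h0
    exact h1 (by rw [h0, map_zero])
  -- evaluate `P` at `x` inside `R`, then apply `iota`
  have heval : Polynomial.aeval x P = 0 := by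
    apply Subtype.ext
    have h1 : ((Polynomial.aeval x P : R) : ℂ) = Polynomial.aeval (x : ℂ) P := by
      have := Polynomial.aeval_algHom_apply (R.subtype.toIntAlgHom) x P
      simpa using this.symm
    rw [h1, hP, minpoly.aeval]
    rfl
  have h2 : Polynomial.eval₂ (Int.castRingHom O) (iota x) P = 0 := by
    have h3 := congrArg iota heval
    rw [map_zero, Polynomial.aeval_def, Polynomial.hom_eval₂] at h3
    have : iota.comp (algebraMap ℤ R) = Int.castRingHom O := RingHom.ext_int _ _
    rwa [this] at h3
  rw [hx, Polynomial.eval₂_at_zero] at h2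
  have h4 : ((P.coeff 0 : ℤ) : O) = 0 := by simpa using h2
  exact hc0 (by exact_mod_cast h4)

end Fermat.Agent.S35
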