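/-
S35 cell [NEW-0] (helper26), part 2: the abstract eigenvector descent.

`H` a finitely generated abelian group with endomorphisms `TH ℓ`, `Tp` a `ℤ_p`-module with
`e : Tp ≃ Hom(H, ℤ_p)` intertwining `Tl ℓ` and precomposition with `TH ℓ` (the lattice form of the
Tate module of `J₀(N)`).  A nonzero simultaneous eigenvector of the `Tl ℓ` (`ℓ` good) in `K ⊗ Tp`
(`K` a field of characteristic zero over `ℤ_p`) whose eigenvalues are the images under an
injective `ι₁ : R →+* K` of elements `a ℓ` of a commutative ring `R` gives, for every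
`ι₂ : R →+* ℂ`, a nonzero `ψ : H →+ ℂ` with `ψ ∘ TH ℓ = ι₂ (a ℓ) · ψ` (`s35n_core`).
Imports: Mathlib + JT3/Pack/LatticeEigen (frames) + S35/New0/Lin.  Prefix `s35n_`.
-/
import Mathlib
import Fermat.Agent.JT3.Pack.LatticeEigen
import Fermat.Agent.S35.New0.Lin

set_option autoImplicit false
set_option linter.style.haveILetI false
set_option linter.unusedSectionVars false

namespace Fermat.Agent.S35

open Fermat.Agent.JT3
open scoped TensorProduct

section frame

variable {H : Type} [AddCommGroup H] {n : ℕ} (h : Fin n → H)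
  (hh : ∀ (A : Type) [AddCommGroup A],
      (∀ (m : ℕ) (a : A), m ≠ 0 → m • a = 0 → a = 0) → Function.Bijective (pkh_ev h A))

include hh in
/-- the dual frame in `Hom(H, ℤ)` -/
theorem s35n_exists_dual : ∃ bZ : Fin n → (H →+ ℤ), ∀ j k, bZ j (h k) = if k = j then 1 else 0 := by
  classical
  have hsurj := (hh ℤ pkh_torsionFree_int).2
  choose bZ hbZ using fun j : Fin n => hsurj (fun k => if k = j then 1 else 0)
  exact ⟨bZ, fun j k => congrFun (hbZ j) k⟩

include hh in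
/-- two homomorphisms into a torsion-free group which agree on the frame are equal -/
theorem s35n_ext_frame {A : Type} [AddCommGroup A]
    (hA : ∀ (m : ℕ) (a : A), m ≠ 0 → m • a = 0 → a = 0) {ψ ψ' : H →+ A}
    (hψ : ∀ k, ψ (h k) = ψ' (h k)) : ψ = ψ' :=
  (hh A hA).1 (funext hψ)

include hh in
/-- expansion of a homomorphism along the frame -/
theorem s35n_expand {A : Type} [CommRing A]
    (hA : ∀ (m : ℕ) (a : A), m ≠ 0 → m • a = 0 → a = 0)
    (bZ : Fin n → (H →+ ℤ)) (hbZ : ∀ j k, bZ j (h k) = if k = j then 1 else 0)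
    (ψ : H →+ A) (x : H) : ψ x = ∑ j, ((bZ j x : ℤ) : A) * ψ (h j) := by
  classical
  let ψ' : H →+ A :=
    ∑ j, (AddMonoidHom.mulRight (ψ (h j))).comp ((Int.castAddHom A).comp (bZ j))
  have hψ' : ∀ x, ψ' x = ∑ j, ((bZ j x : ℤ) : A) * ψ (h j) := by
    intro x
    simp only [ψ', AddMonoidHom.finsetSum_apply, AddMonoidHom.comp_apply,
      AddMonoidHom.coe_mulRight, Int.coe_castAddHom]
  have : ψ = ψ' := by
    apply s35n_ext_frame h hh hA
    intro k
    rw [hψ']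
    simp only [hbZ]
    rw [Finset.sum_eq_single k]
    · simp
    · intro j _ hjk
      rw [if_neg (Ne.symm hjk)]
      simp
    · intro hk
      exact absurd (Finset.mem_univ k) hk
  have h1 : ψ x = ψ' x := DFunLike.congr_fun this x
  rw [h1]
  exact hψ' x

end frame

/-- a field of characteristic zero is torsion-free as an additive group -/
theorem s35n_torsionFree_field (K : Type) [Field K] [CharZero K] :
    ∀ (m : ℕ) (a : K), m ≠ 0 → m • a = 0 → a = 0 := by
  intro m a hm h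
  rw [nsmul_eq_mul] at h
  rcases mul_eq_zero.1 h with h | h
  · exact absurd (by exact_mod_cast h) hm
  · exact h

section core

variable {p : ℕ} [Fact p.Prime] {H : Type} [AddCommGroup H] [AddGroup.FG H]
  (TH : ℕ → (H →+ H))
  {Tp : Type} [AddCommGroup Tp] [Module ℤ_[p] Tp]
  (e : Tp ≃ₗ[ℤ_[p]] (H →+ ℤ_[p])) (Tl : ℕ → Module.End ℤ_[p] Tp) (Good : ℕ → Prop)
  (he : ∀ ℓ, Good ℓ → ∀ x : Tp, e (Tl ℓ x) = (e x).comp (TH ℓ))
  {K : Type} [Field K] [CharZero K] [Algebra ℤ_[p] K]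
  {R : Type*} [CommRing R] (ι₁ : R →+* K) (hι₁ : Function.Injective ι₁) (ι₂ : R →+* ℂ)
  (a : ℕ → R)

include he hι₁ in
/-- **the abstract eigenvector descent** -/
theorem s35n_core (v : K ⊗[ℤ_[p]] Tp) (hv0 : v ≠ 0)
    (hv : ∀ ℓ, Good ℓ → (Tl ℓ).baseChange K v = ι₁ (a ℓ) • v) :
    ∃ ψ : H →+ ℂ, ψ ≠ 0 ∧ ∀ ℓ, Good ℓ → ∀ x : H, ψ (TH ℓ x) = ι₂ (a ℓ) * ψ x := by
  classical
  obtain ⟨n, h, hh⟩ := pkh_exists_frame H
  obtain ⟨bZ, hbZ⟩ := s35n_exists_dual h hh
  have tfP := pkh_torsionFree_padic p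
  have tfK := s35n_torsionFree_field K
  have tfC := s35n_torsionFree_field ℂ
  -- the integer matrices of the `TH ℓ`
  set m : ℕ → Fin n → Fin n → ℤ := fun ℓ k j => bZ j (TH ℓ (h k)) with hm
  -- coordinates on `K ⊗ Tp`
  let ε : Tp ≃ₗ[ℤ_[p]] (Fin n → ℤ_[p]) :=
    e ≪≫ₗ LinearEquiv.ofBijective (pkh_evL h ℤ_[p]) (pkh_evL_bijective h hh ℤ_[p] tfP)
  have hε : ∀ (x : Tp) (k : Fin n), ε x k = e x (h k) := fun x k => rfl
  let E : K ⊗[ℤ_[p]] Tp ≃ₗ[K] (Fin n → K) :=
    (ε.baseChange ℤ_[p] K Tp (Fin n → ℤ_[p])) ≪≫ₗ TensorProduct.piScalarRight ℤ_[p] K K (Fin n)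
  have hE : ∀ (c : K) (x : Tp) (k : Fin n),
      E (c ⊗ₜ[ℤ_[p]] x) k = algebraMap ℤ_[p] K (e x (h k)) * c := by
    intro c x k
    show (TensorProduct.piScalarRight ℤ_[p] K K (Fin n))
      ((ε.baseChange ℤ_[p] K Tp (Fin n → ℤ_[p])) (c ⊗ₜ[ℤ_[p]] x)) k = _
    rw [LinearEquiv.baseChange_tmul, TensorProduct.piScalarRight_apply,
      TensorProduct.piScalarRightHom_tmul]
    show ε x k • c = _
    rw [hε, Algebra.smul_def]
  -- the action of `Tl ℓ` in coordinates
  have hTl : ∀ ℓ, Good ℓ → ∀ (w : K ⊗[ℤ_[p]] Tp) (k : Fin n),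
      E ((Tl ℓ).baseChange K w) k = ∑ j, ((m ℓ k j : ℤ) : K) * E w j := by
    intro ℓ hℓ w k
    induction w using TensorProduct.induction_on with
    | zero => simp
    | tmul c x =>
      rw [LinearMap.baseChange_tmul, hE, he ℓ hℓ x, AddMonoidHom.comp_apply,
        s35n_expand h hh tfP bZ hbZ (e x) (TH ℓ (h k)), map_sum, Finset.sum_mul]
      refine Finset.sum_congr rfl fun j _ => ?_
      rw [hE, map_mul, map_intCast]
      ring
    | add w w' hw hw' =>
      rw [map_add, map_add, Pi.add_apply, hw, hw', ← Finset.sum_add_distrib]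
      refine Finset.sum_congr rfl fun j _ => ?_
      rw [map_add, Pi.add_apply, mul_add]
  -- the system over `R`
  let A : {ℓ : ℕ // Good ℓ} × Fin n → Fin n → R :=
    fun i j => ((m i.1.1 i.2 j : ℤ) : R) - if j = i.2 then a i.1.1 else 0
  have hsum : ∀ {F : Type} [Field F] (ι : R →+* F) (i : {ℓ : ℕ // Good ℓ} × Fin n)
      (y : Fin n → F),
      ∑ j, ι (A i j) * y j = (∑ j, ((m i.1.1 i.2 j : ℤ) : F) * y j) - ι (a i.1.1) * y i.2 := by
    intro F _ ι i y
    simp only [A, map_sub, sub_mul, Finset.sum_sub_distrib, map_intCast]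
    congr 1
    rw [Finset.sum_eq_single i.2]
    · rw [if_pos rfl]
    · intro j _ hj
      rw [if_neg hj, map_zero, zero_mul]
    · intro hi
      exact absurd (Finset.mem_univ _) hi
  have hK : ∃ y : Fin n → K, y ≠ 0 ∧ ∀ i, ∑ j, ι₁ (A i j) * y j = 0 := by
    refine ⟨E v, fun h0 => hv0 (E.injective (h0.trans (map_zero E).symm)), fun i => ?_⟩
    rw [hsum ι₁ i (E v), ← hTl i.1.1 i.1.2 v i.2, hv i.1.1 i.1.2, map_smul, Pi.smul_apply,
      smul_eq_mul, sub_self]
  obtain ⟨y, hy0, hy⟩ := s35n_lin ι₁ ι₂ hι₁ A hK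
  -- the homomorphism with coordinates `y`
  obtain ⟨ψ, hψ⟩ := (hh ℂ tfC).2 y
  have hψk : ∀ k, ψ (h k) = y k := fun k => congrFun hψ k
  refine ⟨ψ, fun h0 => hy0 ?_, fun ℓ hℓ => ?_⟩
  · funext k
    rw [← hψk k, h0]
    rfl
  · have heq : ψ.comp (TH ℓ) = (AddMonoidHom.mulLeft (ι₂ (a ℓ))).comp ψ := by
      apply s35n_ext_frame h hh tfC
      intro k
      rw [AddMonoidHom.comp_apply, AddMonoidHom.comp_apply, AddMonoidHom.coe_mulLeft,
        s35n_expand h hh tfC bZ hbZ ψ (TH ℓ (h k))]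
      have h1 := hy (⟨ℓ, hℓ⟩, k)
      rw [hsum ι₂ (⟨ℓ, hℓ⟩, k) y, sub_eq_zero] at h1
      simp only [hψk]
      exact h1
    intro x
    have := DFunLike.congr_fun heq x
    simpa using this

end core

end Fermat.Agent.S35
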